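import Mathlib
import Fermat.Agent.X0.ACL.PlaceOfVal
import Fermat.Agent.Good.CuspBound
import Fermat.Prelude.Def_ModularCurve_ArithmeticGalois

/-!
# MOONSHOT S19, leaf (Pinf): the `q`-order place of `F̄_N = modularFunctionFieldBar N`

`Fb N ⊆ ℚ̄((q))`; the order of the `q`-expansion is a discrete valuation of `Fb N` trivial on `ℚ̄`,
normalised (`1/j` has order `1`).

* `qOrd N f` : the order of the `q`-expansion of `f : Fb N`;
* `pinf N : Place Kb (Fb N)` : its place (valuation ring `{f | f = 0 ∨ 0 ≤ qOrd N f}`);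
* `pinf_ord` : `(pinf N).ord f = qOrd N f`;
* `pinf_mem_placesOverInfty` : `pinf N` is a pole of `j`, `ord = -1`;
* `arithmeticGalois_smul_pinf` : `pinf N` is fixed by `G_ℚ` (acting on the coefficients);
* `arithmeticGalois_smul_single_pinf` : so is the divisor `m · ∞`.
-/

set_option autoImplicit false

open AlgebraicCurve ModularCurve HahnSeries Fermat.Agent.X0

noncomputable section

namespace Fermat.Agent.FF2.Rat24

variable (N : ℕ)

/-- the order of the `q`-expansion -/
def qOrd (f : Fb N) : ℤ := ((f : Fb N) : LaurentSeries Kb).order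

variable {N}

theorem coe_ne_zero {f : Fb N} (hf : f ≠ 0) : ((f : Fb N) : LaurentSeries Kb) ≠ 0 := by
  intro h
  exact hf (Subtype.ext h)

theorem isValFun_qOrd : IsValFun Kb (qOrd N) where
  map_mul f g hf hg := by
    unfold qOrd
    rw [MulMemClass.coe_mul]
    exact HahnSeries.order_mul (coe_ne_zero hf) (coe_ne_zero hg)
  map_add f g _ _ hfg := by
    unfold qOrd
    rw [AddMemClass.coe_add]
    exact HahnSeries.min_order_le_order_add (by
      rw [← AddMemClass.coe_add]
      exact coe_ne_zero hfg)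
  map_const a _ := by
    unfold qOrd
    have h0 : ((algebraMap Kb (Fb N) a : Fb N) : LaurentSeries Kb) =
        algebraMap Kb (LaurentSeries Kb) a := rfl
    have h1 : algebraMap Kb (LaurentSeries Kb) a = HahnSeries.C a := by
      rw [algebraMap_laurentSeries_eq_single, HahnSeries.C_apply]
    rw [h0, h1]
    exact HahnSeries.order_C

variable (N)

theorem order_jqModC_Kb : (jqModC Kb).order = -1 := by
  have hne : jqModC Kb ≠ 0 := jqModC_ne_zero_of_nontrivial Kb
  apply le_antisymm
  · apply HahnSeries.order_le_of_coeff_ne_zero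
    rw [coeff_jqModC_neg_one]
    exact one_ne_zero
  · by_contra hlt
    push Not at hlt
    exact hne (HahnSeries.coeff_order_eq_zero.1 (coeff_jqModC_of_lt Kb hlt))

variable [NeZero N]

theorem qOrd_jBar : qOrd N (jBar N) = -1 := by
  unfold qOrd
  rw [Fermat.Agent.Good.CuspBound.coe_jBar_eq, order_jqModC_Kb]

theorem jBar_inv_ne_zero : (jBar N)⁻¹ ≠ 0 :=
  inv_ne_zero (Fermat.Agent.Good.CuspBound.jBar_ne_zero N)

theorem qOrd_jBar_inv : qOrd N (jBar N)⁻¹ = 1 := by
  rw [(isValFun_qOrd (N := N)).map_inv (Fermat.Agent.Good.CuspBound.jBar_ne_zero N), qOrd_jBar]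
  norm_num

/-- **The cusp `∞`**: the place of `F̄_N` given by the order of the `q`-expansion. -/
def pinf : Place Kb (Fb N) :=
  (isValFun_qOrd (N := N)).place (jBar_inv_ne_zero N) (by rw [qOrd_jBar_inv]; norm_num)

theorem mem_pinf_iff {f : Fb N} :
    f ∈ (pinf N).toValuationSubring ↔ f = 0 ∨ 0 ≤ qOrd N f := Iff.rfl

/-- The valuation is normalised: `ord_∞ = ` order of the `q`-expansion. -/
theorem pinf_ord {f : Fb N} (hf : f ≠ 0) : (pinf N).ord f = qOrd N f := by
  obtain ⟨m, t, hm, ht0, htm, ht1, h⟩ :=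
    (isValFun_qOrd (N := N)).exists_eq_mul_ord (jBar_inv_ne_zero N)
      (by rw [qOrd_jBar_inv]; norm_num)
  have h1 := h _ (jBar_inv_ne_zero N)
  -- `1 = m * ord`, `m > 0` ⇒ `m = 1`
  have hm1 : m = 1 := by
    have hdvd : m ∣ 1 := ⟨_, (qOrd_jBar_inv N).symm.trans h1⟩
    exact Int.eq_one_of_dvd_one hm.le hdvd
  have h2 := h f hf
  rw [hm1, one_mul] at h2
  exact h2.symm

theorem pinf_ord_jBar : (pinf N).ord (jBar N) = -1 := by
  rw [pinf_ord N (Fermat.Agent.Good.CuspBound.jBar_ne_zero N), qOrd_jBar]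

theorem pinf_mem_placesOverInfty : pinf N ∈ placesOverInfty Kb (jBar N) := by
  rw [mem_placesOverInfty, pinf_ord_jBar]
  norm_num

/-! ### Galois invariance -/

section Galois

local notation "GQ" => (AlgebraicClosure ℚ ≃ₐ[ℚ] AlgebraicClosure ℚ)

variable {N}

omit [NeZero N] in
theorem order_coeffMap_ringEquiv (σ : GQ) (x : LaurentSeries Kb) :
    (coeffMap (σ : Kb →+* Kb) x).order = x.order := by
  rcases eq_or_ne x 0 with rfl | hx
  · simp
  have hinj : Function.Injective (σ : Kb →+* Kb) := (σ : Kb →+* Kb).injective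
  have hsupp : (coeffMap (σ : Kb →+* Kb) x).support = x.support := by
    ext n
    simp only [HahnSeries.mem_support, ne_eq]
    have : (coeffMap (σ : Kb →+* Kb) x).coeff n = (σ : Kb →+* Kb) (x.coeff n) := rfl
    rw [this, map_eq_zero_iff _ hinj]
  have hne : coeffMap (σ : Kb →+* Kb) x ≠ 0 := by
    intro h
    apply hx
    rw [← HahnSeries.support_eq_empty_iff] at h ⊢
    rwa [hsupp] at h
  rw [HahnSeries.order_of_ne hne, HahnSeries.order_of_ne hx]
  congr 1

omit [NeZero N] in
theorem qOrd_arithmeticGalois_smul (σ : GQ) (f : Fb N) :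
    qOrd N (arithmeticGalois (modularFunctionFieldFull N) σ • f) = qOrd N f := by
  unfold qOrd
  rw [coe_arithmeticGalois_smul]
  exact order_coeffMap_ringEquiv σ _

variable (N)

/-- **The cusp `∞` is fixed by `G_ℚ`.** -/
theorem arithmeticGalois_smul_pinf (σ : GQ) :
    arithmeticGalois (modularFunctionFieldFull N) σ • pinf N = pinf N := by
  apply Place.ext
  rw [SemilinearAut.smul_toValuationSubring]
  ext f
  rw [ValuationSubring.mem_pointwise_smul_iff_inv_smul_mem, mem_pinf_iff, mem_pinf_iff,
    ← map_inv, qOrd_arithmeticGalois_smul]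
  constructor
  · rintro (h | h)
    · left
      have := congrArg (fun y => arithmeticGalois (modularFunctionFieldFull N) σ⁻¹⁻¹ • y) h
      simpa using this
    · right; exact h
  · rintro (h | h)
    · left; rw [h, smul_zero]
    · right; exact h

/-- The divisor `m · ∞` is fixed by `G_ℚ`. -/
theorem arithmeticGalois_smul_single_pinf (σ : GQ) (m : ℤ) :
    arithmeticGalois (modularFunctionFieldFull N) σ •
        (Finsupp.single (pinf N) m : Divisor Kb (Fb N)) = Finsupp.single (pinf N) m := by
  rw [SemilinearAut.smul_single, arithmeticGalois_smul_pinf]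

end Galois

end Fermat.Agent.FF2.Rat24
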